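import Fermat.Agent.S26.C4.Spec

/-!
# Row S26, block CUBE, leaf C4a (helper730): a curve through `0` leaving a closed set

`c4a : C4.Stmt.C4a K` — exact shape of `Fermat/Agent/S26/C4/Spec.lean` (assembler helper478).

## Algebraic core
`exists_prime_curve` : for a finitely generated domain `R` over an algebraically closed field
`K`, a maximal ideal `m` and a nonzero ideal `I ≤ m`, there is a prime `q ≤ m` with `¬ I ≤ q`
such that `R ⧸ q` is a finite injective extension of `K[X]` (so `R ⧸ q` is a one-dimensional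
domain, `ringKrullDim_eq_one_of_finite_inj`).
Proof: Noether normalisation `P = K[x_1..x_s] ⊆ R` (finite), a line `ℓ` in affine `s`-space
through the image `c` of `m` on which a nonzero `h ∈ I ∩ P` does not vanish identically, and
going-down (`P` is integrally closed) for the prime of `ℓ` below `m ∩ P`.

## Scheme form
`exists_integral_curve_through` : `A` an integral scheme, locally of finite type over `K`,
`a : A` a closed point, `B ∋ a` a proper closed subset.  Then there is an integral closed
subscheme `ι : Γ ⟶ A` (reduced induced structure on the closure of the point `q`) with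
`a ∈ range ι`, `¬ range ι ⊆ B`, and on the affine open `V = ι⁻¹ U` (`U ∋ a` affine open of `A`)
the ring `Γ(Γ, V)` is a finite injective extension of `K[X]` compatibly with `K`.

## Transcendence degree
`isCurveOver_of_cert` : such a certificate gives `trdeg_K K(Γ) = 1` (`C4.IsCurveOver`).
-/

set_option autoImplicit false
set_option linter.style.haveILetI false

universe u

open AlgebraicGeometry CategoryTheory TopologicalSpace Polynomial
open NeronModelInfra GoodReductionJacobian

namespace Fermat.Agent.S26.H730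

open Polynomial

section Line

variable {K : Type*} [Field K] {s : ℕ}

/-- The parametrised line `t ↦ c + t a` in affine `s`-space, as a `K`-algebra map. -/
noncomputable def lineHom (c a : Fin s → K) : MvPolynomial (Fin s) K →ₐ[K] K[X] :=
  MvPolynomial.aeval fun i => Polynomial.C (c i) + Polynomial.C (a i) * Polynomial.X

theorem aeval_comp_lineHom (c a : Fin s → K) (t : K) :
    (Polynomial.aeval t).comp (lineHom c a) = MvPolynomial.aeval (fun i => c i + a i * t) := by
  apply MvPolynomial.algHom_ext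
  intro i
  simp [lineHom]

theorem aeval_lineHom (c a : Fin s → K) (t : K) (p : MvPolynomial (Fin s) K) :
    Polynomial.aeval t (lineHom c a p) = MvPolynomial.aeval (fun i => c i + a i * t) p :=
  DFunLike.congr_fun (aeval_comp_lineHom c a t) p

theorem lineHom_surjective (c a : Fin s → K) {i : Fin s} (hi : a i ≠ 0) :
    Function.Surjective (lineHom c a) := by
  rw [← AlgHom.range_eq_top, eq_top_iff, ← Polynomial.adjoin_X]
  have hX : (Polynomial.X : K[X]) ∈ (lineHom c a).range := by
    rw [AlgHom.mem_range]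
    refine ⟨MvPolynomial.C (a i)⁻¹ * (MvPolynomial.X i - MvPolynomial.C (c i)), ?_⟩
    have h1 : lineHom c a (MvPolynomial.X i) = Polynomial.C (c i) + Polynomial.C (a i) * X := by
      simp [lineHom]
    have h2 : ∀ r : K, lineHom c a (MvPolynomial.C r) = Polynomial.C r := fun r => by
      simp [lineHom]
    rw [map_mul, map_sub, h1, h2, h2, add_sub_cancel_left, ← mul_assoc, ← Polynomial.C_mul,
      inv_mul_cancel₀ hi, Polynomial.C_1, one_mul]
  exact Algebra.adjoin_le (by simpa using hX)

end Line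

section Dim

variable {K : Type*} [Field K]

/-- A ring which is a finite injective extension of `K[X]` is not a field. -/
theorem not_isField_of_finite_inj {D : Type*} [CommRing D]
    (f : K[X] →+* D) (hinj : Function.Injective f) (hfin : f.Finite) : ¬ IsField D := by
  letI : Algebra K[X] D := f.toAlgebra
  haveI : Module.Finite K[X] D := hfin
  haveI : Algebra.IsIntegral K[X] D := Algebra.IsIntegral.of_finite K[X] D
  intro hD
  exact Polynomial.not_isField K (isField_of_isIntegral_of_isField (R := K[X]) (S := D) hinj hD)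

/-- In a domain which is a finite extension of `K[X]`, every nonzero prime is maximal. -/
theorem isMaximal_of_finite_inj {D : Type*} [CommRing D] [IsDomain D]
    (f : K[X] →+* D) (hfin : f.Finite)
    (Q : Ideal D) [Q.IsPrime] (hQ : Q ≠ ⊥) : Q.IsMaximal := by
  letI : Algebra K[X] D := f.toAlgebra
  haveI : Module.Finite K[X] D := hfin
  haveI : Algebra.IsIntegral K[X] D := Algebra.IsIntegral.of_finite K[X] D
  have h1 : Q.comap (algebraMap K[X] D) ≠ ⊥ := Ideal.IsIntegral.comap_ne_bot K[X] hQ
  haveI : (Q.comap (algebraMap K[X] D)).IsPrime := Ideal.comap_isPrime _ _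
  have h2 : (Q.comap (algebraMap K[X] D)).IsMaximal := Ideal.IsPrime.isMaximal inferInstance h1
  exact Ideal.isMaximal_of_isIntegral_of_isMaximal_comap Q h2

/-- A domain which is a finite extension of `K[X]` has Krull dimension at most one. -/
theorem krullDimLE_one_of_finite {D : Type*} [CommRing D] [IsDomain D]
    (f : K[X] →+* D) (hfin : f.Finite) : Ring.KrullDimLE 1 D :=
  Ring.KrullDimLE.mk₁' fun Q hQ hQp => by
    haveI := hQp
    exact isMaximal_of_finite_inj f hfin Q hQ

/-- A domain which is a finite injective extension of `K[X]` has Krull dimension one. -/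
theorem ringKrullDim_eq_one_of_finite_inj {D : Type*} [CommRing D] [IsDomain D]
    (f : K[X] →+* D) (hinj : Function.Injective f) (hfin : f.Finite) :
    ringKrullDim D = 1 := by
  have hle : Ring.KrullDimLE 1 D := krullDimLE_one_of_finite f hfin
  apply eq_of_le_of_not_lt ?_ fun h' => not_isField_of_finite_inj f hinj hfin ?_
  · rw [← Nat.cast_one, ← Ring.krullDimLE_iff]
    exact hle
  · have h'' : ringKrullDim D ≤ 0 := Order.le_of_lt_succ h'
    rw [← Nat.cast_zero, ← Ring.krullDimLE_iff] at h''
    exact Ring.KrullDimLE.isField_of_isDomain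

end Dim

section Core

variable {K : Type*} [Field K] [IsAlgClosed K]

/-- **C4a, algebraic core.** Through every closed point `m` of an affine variety `Spec R` and
outside every proper closed subset `V(I) ∋ m` there is an irreducible curve `V(q)`:
`q ≤ m` is prime, `¬ I ≤ q`, and `R ⧸ q` is finite over a polynomial ring `K[X] ⊆ R ⧸ q`. -/
theorem exists_prime_curve (R : Type*) [CommRing R] [IsDomain R] [Algebra K R]
    [Algebra.FiniteType K R] (m : Ideal R) [m.IsMaximal] (I : Ideal R) (hI : I ≠ ⊥)
    (hIm : I ≤ m) :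
    ∃ q : Ideal R, q.IsPrime ∧ q ≤ m ∧ ¬ I ≤ q ∧
      ∃ f : K[X] →ₐ[K] R ⧸ q, Function.Injective f ∧ f.Finite := by
  classical
  obtain ⟨s, g, hg_inj, hg_fin⟩ := exists_finite_inj_algHom_of_fg K R
  set P := MvPolynomial (Fin s) K with hP
  letI algPR : Algebra P R := g.toRingHom.toAlgebra
  haveI : IsScalarTower K P R := IsScalarTower.of_algebraMap_eq fun r => by
    change algebraMap K R r = g (algebraMap K P r)
    exact (g.commutes r).symm
  have hgalg : (algebraMap P R : P → R) = g := rfl
  haveI : Module.Finite P R := hg_fin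
  haveI : Algebra.IsIntegral P R := Algebra.IsIntegral.of_finite P R
  haveI : FaithfulSMul P R := (faithfulSMul_iff_algebraMap_injective P R).mpr hg_inj
  -- the point `c` below `m`
  haveI hm' : (m.under P).IsMaximal := Ideal.isMaximal_comap_of_isIntegral_of_isMaximal m
  obtain ⟨c, hc⟩ := MvPolynomial.isMaximal_iff_eq_vanishingIdeal_singleton.mp hm'
  -- a nonzero polynomial `h` in `I ∩ P`
  have hI' : I.under P ≠ ⊥ := Ideal.IsIntegral.comap_ne_bot P hI
  obtain ⟨h, hhI, hh0⟩ := Submodule.exists_mem_ne_zero_of_ne_bot hI'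
  have hhc : MvPolynomial.aeval c h = 0 := by
    rw [← MvPolynomial.mem_vanishingIdeal_singleton_iff, ← hc]
    exact Ideal.comap_mono hIm hhI
  -- a point `b` with `h b ≠ 0`
  obtain ⟨b, hb⟩ : ∃ b : Fin s → K, MvPolynomial.eval b h ≠ 0 := by
    by_contra hcon
    push Not at hcon
    exact hh0 (MvPolynomial.funext fun x => by simpa using hcon x)
  have hbc : b ≠ c := by
    rintro rfl
    exact hb (by simpa [MvPolynomial.aeval_eq_eval] using hhc)
  obtain ⟨i, hi⟩ : ∃ i, b i - c i ≠ 0 := by
    by_contra hcon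
    push Not at hcon
    exact hbc (funext fun i => sub_eq_zero.mp (hcon i))
  -- the line through `c` and `b`
  set φ := lineHom c (fun i => b i - c i) with hφ
  have hφsurj : Function.Surjective φ := lineHom_surjective c _ hi
  set 𝔭 : Ideal P := RingHom.ker φ.toRingHom with h𝔭
  haveI h𝔭prime : 𝔭.IsPrime := RingHom.ker_isPrime φ.toRingHom
  have h𝔭le : 𝔭 ≤ m.under P := by
    intro p hp
    rw [hc, MvPolynomial.mem_vanishingIdeal_singleton_iff]
    have hp0 : φ p = 0 := hp
    have := aeval_lineHom c (fun i => b i - c i) 0 p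
    rw [← hφ, hp0, map_zero] at this
    simpa using this.symm
  have hh𝔭 : h ∉ 𝔭 := by
    intro hp
    have hp0 : φ h = 0 := hp
    have := aeval_lineHom c (fun i => b i - c i) 1 h
    rw [← hφ, hp0, map_zero] at this
    apply hb
    have e : (fun i => c i + (b i - c i) * 1) = b := by
      funext i; ring
    rw [e] at this
    simpa [MvPolynomial.aeval_eq_eval] using this.symm
  -- going down
  haveI : m.LiesOver (m.under P) := ⟨rfl⟩
  obtain ⟨q, hqm, hqprime, hqover⟩ :=
    Ideal.exists_ideal_le_liesOver_of_le (p := 𝔭) (q := m.under P) m h𝔭le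
  refine ⟨q, hqprime, hqm, ?_, ?_⟩
  · intro hIq
    apply hh𝔭
    rw [hqover.over]
    exact Ideal.comap_mono hIq hhI
  · -- `K[X] ≃ P ⧸ 𝔭 → R ⧸ q`
    let e : (P ⧸ 𝔭) ≃ₐ[K] K[X] := Ideal.quotientKerAlgEquivOfSurjective hφsurj
    letI : Algebra (P ⧸ 𝔭) (R ⧸ q) := Ideal.Quotient.algebraOfLiesOver q 𝔭
    haveI : Module.Finite (P ⧸ 𝔭) (R ⧸ q) := inferInstance
    haveI : IsScalarTower K (P ⧸ 𝔭) (R ⧸ q) := IsScalarTower.of_algebraMap_eq fun r => by
      change algebraMap K (R ⧸ q) r = algebraMap (P ⧸ 𝔭) (R ⧸ q) (algebraMap K (P ⧸ 𝔭) r)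
      rw [IsScalarTower.algebraMap_apply K P (P ⧸ 𝔭), IsScalarTower.algebraMap_apply K R (R ⧸ q),
        IsScalarTower.algebraMap_apply K P R]
      rfl
    let j : (P ⧸ 𝔭) →ₐ[K] (R ⧸ q) := IsScalarTower.toAlgHom K (P ⧸ 𝔭) (R ⧸ q)
    have hj_inj : Function.Injective j := by
      change Function.Injective (algebraMap (P ⧸ 𝔭) (R ⧸ q))
      exact FaithfulSMul.algebraMap_injective _ _
    have hj_fin : j.Finite := by
      change (algebraMap (P ⧸ 𝔭) (R ⧸ q)).Finite
      exact RingHom.finite_algebraMap.mpr inferInstance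
    refine ⟨j.comp e.symm.toAlgHom, hj_inj.comp e.symm.injective, ?_⟩
    exact RingHom.Finite.comp hj_fin
      (RingHom.Finite.of_surjective _ e.symm.surjective)

/-- **C4a, algebraic core, dimension form.** -/
theorem exists_prime_ringKrullDim_eq_one (R : Type*) [CommRing R] [IsDomain R] [Algebra K R]
    [Algebra.FiniteType K R] (m : Ideal R) [m.IsMaximal] (I : Ideal R) (hI : I ≠ ⊥)
    (hIm : I ≤ m) :
    ∃ q : Ideal R, q.IsPrime ∧ q ≤ m ∧ ¬ I ≤ q ∧ ringKrullDim (R ⧸ q) = 1 := by
  obtain ⟨q, hq, hqm, hIq, f, hf, hf'⟩ := exists_prime_curve (K := K) R m I hI hIm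
  haveI := hq
  exact ⟨q, hq, hqm, hIq, ringKrullDim_eq_one_of_finite_inj f.toRingHom hf hf'⟩

end Core

section Top

/-- A space which embeds onto an irreducible subset is irreducible. -/
theorem irreducibleSpace_of_isInducing {X Y : Type*} [TopologicalSpace X] [TopologicalSpace Y]
    (f : X → Y) (hf : Topology.IsInducing f) (h : IsIrreducible (Set.range f)) :
    IrreducibleSpace X := by
  rw [irreducibleSpace_def]
  obtain ⟨⟨y, x, rfl⟩, hpre⟩ := h
  refine ⟨⟨x, trivial⟩, ?_⟩
  intro u v hu hv ⟨x₁, _, hx₁⟩ ⟨x₂, _, hx₂⟩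
  obtain ⟨u', hu', rfl⟩ := hf.isOpen_iff.mp hu
  obtain ⟨v', hv', rfl⟩ := hf.isOpen_iff.mp hv
  obtain ⟨z, ⟨w, rfl⟩, hz⟩ := hpre u' v' hu' hv' ⟨f x₁, ⟨x₁, rfl⟩, hx₁⟩ ⟨f x₂, ⟨x₂, rfl⟩, hx₂⟩
  exact ⟨w, trivial, hz⟩

end Top

section Subscheme

variable {A : Scheme.{u}}

/-- The reduced induced closed subscheme structure is reduced. -/
theorem isReduced_vanishingIdeal_subscheme (Z : Closeds A) :
    IsReduced (Scheme.IdealSheafData.vanishingIdeal Z).subscheme := by
  set I := Scheme.IdealSheafData.vanishingIdeal Z with hI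
  have key : ∀ U : A.affineOpens, IsReduced (Spec (.of (Γ(A, U.1) ⧸ I.ideal U))) := by
    intro U
    haveI : _root_.IsReduced (Γ(A, U.1) ⧸ I.ideal U) := by
      rw [← Ideal.isRadical_iff_quotient_reduced, hI,
        Scheme.IdealSheafData.vanishingIdeal_ideal]
      exact PrimeSpectrum.isRadical_vanishingIdeal _
    infer_instance
  haveI : ∀ i, IsReduced (I.subschemeCover.openCover.X i) := fun U => key U
  exact IsReduced.of_openCover (X := I.subscheme) I.subschemeCover.openCover

/-- The reduced induced closed subscheme on an irreducible closed subset is integral. -/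
theorem isIntegral_vanishingIdeal_subscheme (Z : Closeds A) (hZ : IsIrreducible (Z : Set A)) :
    IsIntegral (Scheme.IdealSheafData.vanishingIdeal Z).subscheme := by
  set I := Scheme.IdealSheafData.vanishingIdeal Z with hI
  haveI := isReduced_vanishingIdeal_subscheme Z
  haveI : IrreducibleSpace I.subscheme := by
    apply irreducibleSpace_of_isInducing I.subschemeι I.subschemeι.isEmbedding.isInducing
    rw [Scheme.IdealSheafData.range_subschemeι, hI,
      Scheme.IdealSheafData.coe_support_vanishingIdeal]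
    exact hZ
  exact isIntegral_of_irreducibleSpace_of_isReduced _

end Subscheme

section Str

variable {K : Type u} [Field K] {A : Scheme.{u}} (str : A ⟶ Spec (CommRingCat.of K))

/-- The structure map `K → Γ(A, U)` of a scheme over `Spec K`. -/
noncomputable def secStr (U : A.Opens) : K →+* Γ(A, U) :=
  ((Scheme.ΓSpecIso (CommRingCat.of K)).inv ≫
    str.appLE ⊤ U (show U ≤ str ⁻¹ᵁ ⊤ from fun _ _ => trivial)).hom

theorem secStr_comp {Γ' : Scheme.{u}} (ι : Γ' ⟶ A) (U : A.Opens) :
    secStr (ι ≫ str) (ι ⁻¹ᵁ U) = (ι.app U).hom.comp (secStr str U) := by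
  have h : (ι ≫ str).appLE ⊤ (ι ⁻¹ᵁ U) (show ι ⁻¹ᵁ U ≤ (ι ≫ str) ⁻¹ᵁ ⊤ from fun _ _ => trivial) =
      str.appLE ⊤ U (show U ≤ str ⁻¹ᵁ ⊤ from fun _ _ => trivial) ≫ ι.app U := by
    rw [← Scheme.Hom.appLE_comp_appLE (f := ι) (g := str) (U := ⊤) (V := U) (W := ι ⁻¹ᵁ U)
      (fun _ _ => trivial) le_rfl, Scheme.Hom.appLE_eq_app]
  unfold secStr
  rw [h]
  rfl

theorem secStr_finiteType [LocallyOfFiniteType str] {U : A.Opens} (hU : IsAffineOpen U) :
    (secStr str U).FiniteType := by
  have h1 : (str.appLE ⊤ U (show U ≤ str ⁻¹ᵁ ⊤ from fun _ _ => trivial)).hom.FiniteType :=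
    HasRingHomProperty.appLE @LocallyOfFiniteType str inferInstance
      ⟨⊤, isAffineOpen_top _⟩ ⟨U, hU⟩ _
  have h2 : ((Scheme.ΓSpecIso (CommRingCat.of K)).inv).hom.FiniteType :=
    RingHom.FiniteType.of_surjective _
      (Scheme.ΓSpecIso (CommRingCat.of K)).symm.commRingCatIsoToRingEquiv.surjective
  exact h1.comp h2

end Str

section Main

variable {K : Type u} [Field K] [IsAlgClosed K] {A : Scheme.{u}} [IsIntegral A]
  (str : A ⟶ Spec (CommRingCat.of K)) [LocallyOfFiniteType str]

/-- **C4a.** Through a closed point `a` of an integral scheme `A` locally of finite type over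
an algebraically closed field, and outside a proper closed subset `B ∋ a`, there is an integral
closed curve `Γ'`. -/
theorem exists_integral_curve_through (a : A) (ha : IsClosed ({a} : Set A)) (B : Set A)
    (hB : IsClosed B) (hBne : B ≠ Set.univ) (haB : a ∈ B) :
    ∃ (Γ' : Scheme.{u}) (ι : Γ' ⟶ A), IsClosedImmersion ι ∧ IsIntegral Γ' ∧
      a ∈ Set.range ι ∧ ¬ Set.range ι ⊆ B ∧
      ∃ V : Γ'.Opens, IsAffineOpen V ∧ (∃ y ∈ V, ι y = a) ∧
        ∃ φ : K[X] →+* Γ(Γ', V), Function.Injective φ ∧ φ.Finite ∧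
          ∀ c : K, φ (Polynomial.C c) = secStr (ι ≫ str) V c := by
  classical
  obtain ⟨U, hU, haU, -⟩ :=
    exists_isAffineOpen_mem_and_subset (X := A) (x := a) (U := ⊤) trivial
  haveI : Nonempty U := ⟨⟨a, haU⟩⟩
  set R := Γ(A, U) with hR
  letI algR : Algebra K R := (secStr str U).toAlgebra
  haveI : Algebra.FiniteType K R := secStr_finiteType str hU
  -- the maximal ideal of `a`
  set pa : PrimeSpectrum R := hU.primeIdealOf ⟨a, haU⟩ with hpa
  have hpa' : hU.fromSpec pa = a := hU.fromSpec_primeIdealOf ⟨a, haU⟩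
  have hemb := hU.fromSpec.isOpenEmbedding
  haveI hmax : pa.asIdeal.IsMaximal := by
    rw [← PrimeSpectrum.isClosed_singleton_iff_isMaximal]
    have : ({pa} : Set (PrimeSpectrum R)) = hU.fromSpec ⁻¹' {a} := by
      ext x
      simp only [Set.mem_singleton_iff]
      constructor
      · rintro rfl; exact hpa'
      · intro hx; exact hemb.injective (hx.trans hpa'.symm)
    rw [this]
    exact ha.preimage hU.fromSpec.continuous
  -- the ideal of `B`
  set I : Ideal R := PrimeSpectrum.vanishingIdeal (hU.fromSpec ⁻¹' B) with hI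
  have hBU : IsClosed (hU.fromSpec ⁻¹' B) := hB.preimage hU.fromSpec.continuous
  have hI0 : I ≠ ⊥ := by
    intro h0
    apply hBne
    have h1 : hU.fromSpec ⁻¹' B = Set.univ := by
      have e : PrimeSpectrum.zeroLocus ((⊥ : Ideal R) : Set R) =
          closure (hU.fromSpec ⁻¹' B) := by
        rw [← h0, hI]
        exact PrimeSpectrum.zeroLocus_vanishingIdeal_eq_closure _
      have e0 : PrimeSpectrum.zeroLocus ((⊥ : Ideal R) : Set R) = Set.univ :=
        PrimeSpectrum.zeroLocus_bot
      have e'' : closure (hU.fromSpec ⁻¹' B) = hU.fromSpec ⁻¹' B := hBU.closure_eq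
      exact e''.symm.trans (e.symm.trans e0)
    have h2 : (U : Set A) ⊆ B := by
      rw [← hU.range_fromSpec]
      rintro _ ⟨x, rfl⟩
      have : x ∈ hU.fromSpec ⁻¹' B := h1 ▸ Set.mem_univ x
      exact this
    have h3 : Dense (U : Set A) := U.isOpen.dense ⟨a, haU⟩
    exact Set.eq_univ_of_univ_subset (h3.closure_eq ▸ hB.closure_subset_iff.mpr h2)
  have hIm : I ≤ pa.asIdeal := by
    intro r hr
    refine (PrimeSpectrum.mem_vanishingIdeal _ _).mp hr pa ?_
    show hU.fromSpec pa ∈ B
    rw [hpa']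
    exact haB
  obtain ⟨q, hq, hqm, hIq, f, hf_inj, hf_fin⟩ :=
    exists_prime_curve (K := K) R pa.asIdeal I hI0 hIm
  -- the generic point of the curve
  set pq : PrimeSpectrum R := ⟨q, hq⟩ with hpq
  set η : A := hU.fromSpec pq with hη
  set Z : Closeds A := ⟨closure {η}, isClosed_closure⟩ with hZ
  have hZirr : IsIrreducible (Z : Set A) :=
    isIrreducible_iff_closure.mpr isIrreducible_singleton
  set J := Scheme.IdealSheafData.vanishingIdeal Z with hJ
  haveI hint : IsIntegral J.subscheme := isIntegral_vanishingIdeal_subscheme Z hZirr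
  have hrange : Set.range J.subschemeι = closure {η} := by
    rw [Scheme.IdealSheafData.range_subschemeι, hJ,
      Scheme.IdealSheafData.coe_support_vanishingIdeal]
    rfl
  have haZ : a ∈ closure ({η} : Set A) := by
    rw [← specializes_iff_mem_closure, ← hpa']
    exact ((PrimeSpectrum.le_iff_specializes pq pa).mp hqm).map hU.fromSpec.continuous
  have hηB : η ∉ B := by
    intro h
    apply hIq
    intro r hr
    exact (PrimeSpectrum.mem_vanishingIdeal _ _).mp hr pq h
  refine ⟨J.subscheme, J.subschemeι, inferInstance, hint, ?_, ?_, ?_⟩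
  · rw [hrange]; exact haZ
  · intro h; exact hηB (h (hrange ▸ subset_closure rfl))
  · -- the certificate
    have hVaff : IsAffineOpen (J.subschemeι ⁻¹ᵁ U) := hU.preimage J.subschemeι
    obtain ⟨y, hy⟩ : a ∈ Set.range J.subschemeι := hrange ▸ haZ
    refine ⟨J.subschemeι ⁻¹ᵁ U, hVaff, ⟨y, ?_, hy⟩, ?_⟩
    · show J.subschemeι y ∈ U
      rw [hy]; exact haU
    · have hsurj : Function.Surjective (J.subschemeι.app U).hom :=
        J.subschemeι_app_surjective ⟨U, hU⟩
      have hpre : hU.fromSpec ⁻¹' {η} = {pq} := by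
        ext x
        simp only [Set.mem_singleton_iff, Set.mem_preimage]
        constructor
        · intro hx; exact hemb.injective hx
        · rintro rfl; rfl
      have hker : RingHom.ker (J.subschemeι.app U).hom = q := by
        rw [J.ker_subschemeι_app ⟨U, hU⟩, hJ, Scheme.IdealSheafData.vanishingIdeal_ideal]
        show PrimeSpectrum.vanishingIdeal (hU.fromSpec ⁻¹' closure {η}) = q
        have e1 : hU.fromSpec ⁻¹' closure {η} = closure (hU.fromSpec ⁻¹' {η}) :=
          hemb.isOpenMap.preimage_closure_eq_closure_preimage hU.fromSpec.continuous {η}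
        have e2 : PrimeSpectrum.vanishingIdeal (closure (hU.fromSpec ⁻¹' {η})) =
            PrimeSpectrum.vanishingIdeal (hU.fromSpec ⁻¹' {η}) :=
          PrimeSpectrum.vanishingIdeal_closure _
        have e3 : PrimeSpectrum.vanishingIdeal (hU.fromSpec ⁻¹' closure {η}) =
            PrimeSpectrum.vanishingIdeal (closure (hU.fromSpec ⁻¹' {η})) :=
          congrArg (PrimeSpectrum.vanishingIdeal (R := R)) e1
        have e4 : PrimeSpectrum.vanishingIdeal (hU.fromSpec ⁻¹' {η}) =
            PrimeSpectrum.vanishingIdeal {pq} :=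
          congrArg (PrimeSpectrum.vanishingIdeal (R := R)) hpre
        exact e3.trans (e2.trans (e4.trans (PrimeSpectrum.vanishingIdeal_singleton pq)))
      let ψ : R ⧸ q ≃+* Γ(J.subscheme, J.subschemeι ⁻¹ᵁ U) :=
        (Ideal.quotEquivOfEq hker.symm).trans (RingHom.quotientKerEquivOfSurjective hsurj)
      have hψ : ∀ r : R, ψ (Ideal.Quotient.mk q r) = (J.subschemeι.app U).hom r := fun r => rfl
      refine ⟨ψ.toRingHom.comp f.toRingHom, ψ.injective.comp hf_inj, ?_, ?_⟩
      · exact RingHom.Finite.comp (RingHom.Finite.of_surjective _ ψ.surjective) hf_fin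
      · intro c
        rw [secStr_comp]
        have h1 : f (Polynomial.C c) = Ideal.Quotient.mk q (secStr str U c) := by
          rw [← Polynomial.algebraMap_eq, f.commutes]
          rfl
        show ψ (f (Polynomial.C c)) = _
        rw [h1, hψ]
        rfl

include str in
/-- **C4a**, dimension form: the curve has an affine open neighbourhood of (the point over) `a`
whose coordinate ring has Krull dimension one. -/
theorem exists_integral_curve_through_dim (a : A) (ha : IsClosed ({a} : Set A)) (B : Set A)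
    (hB : IsClosed B) (hBne : B ≠ Set.univ) (haB : a ∈ B) :
    ∃ (Γ' : Scheme.{u}) (ι : Γ' ⟶ A), IsClosedImmersion ι ∧ IsIntegral Γ' ∧
      a ∈ Set.range ι ∧ ¬ Set.range ι ⊆ B ∧
      ∃ V : Γ'.Opens, IsAffineOpen V ∧ (∃ y ∈ V, ι y = a) ∧ ringKrullDim Γ(Γ', V) = 1 := by
  obtain ⟨Γ', ι, h1, h2, h3, h4, V, hV, ⟨y, hyV, hy⟩, φ, hφ, hφ', -⟩ :=
    exists_integral_curve_through str a ha B hB hBne haB
  haveI := h2
  haveI : Nonempty V := ⟨⟨y, hyV⟩⟩
  exact ⟨Γ', ι, h1, h2, h3, h4, V, hV, ⟨y, hyV, hy⟩,
    ringKrullDim_eq_one_of_finite_inj φ hφ hφ'⟩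

end Main

section Trdeg

variable {K : Type u} [Field K] {Γ' : Scheme.{u}} [IsIntegral Γ']
  (γ : Γ' ⟶ Spec (CommRingCat.of K))

/-- The structure map of the function field factors through the sections on `V`. -/
theorem ffStr_eq_germ_secStr (V : Γ'.Opens) [Nonempty V] (c : K) :
    ffStr γ c = (Γ'.germToFunctionField V).hom (secStr γ V c) := by
  have h : γ.appLE ⊤ V (show V ≤ γ ⁻¹ᵁ ⊤ from fun _ _ => trivial) ≫ Γ'.germToFunctionField V =
      γ.appTop ≫ Γ'.presheaf.germ ⊤ (genericPoint Γ') (TopologicalSpace.Opens.mem_top _) := by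
    rw [Scheme.Hom.appLE, Category.assoc]
    erw [Γ'.presheaf.germ_res]
    rfl
  unfold ffStr secStr
  rw [← CommRingCat.comp_apply, Category.assoc, h]

/-- A curve certificate gives transcendence degree one. -/
theorem isCurveOver_of_cert (V : Γ'.Opens) (hV : IsAffineOpen V) [Nonempty V]
    (φ : K[X] →+* Γ(Γ', V)) (hφ : Function.Injective φ) (hφ' : φ.Finite)
    (hφK : ∀ c : K, φ (Polynomial.C c) = secStr γ V c) : C4.IsCurveOver γ := by
  unfold C4.IsCurveOver
  letI algF : Algebra K Γ'.functionField := (ffStr γ).toAlgebra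
  letI algD : Algebra K Γ(Γ', V) := (secStr γ V).toAlgebra
  letI algP : Algebra K[X] Γ(Γ', V) := φ.toAlgebra
  haveI : IsFractionRing Γ(Γ', V) Γ'.functionField :=
    functionField_isFractionRing_of_isAffineOpen Γ' V hV
  haveI : IsScalarTower K Γ(Γ', V) Γ'.functionField :=
    IsScalarTower.of_algebraMap_eq fun c => ffStr_eq_germ_secStr γ V c
  haveI : IsScalarTower K K[X] Γ(Γ', V) :=
    IsScalarTower.of_algebraMap_eq fun c => (hφK c).symm
  haveI : Module.Finite K[X] Γ(Γ', V) := hφ'
  haveI : Algebra.IsIntegral K[X] Γ(Γ', V) := Algebra.IsIntegral.of_finite _ _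
  haveI : Algebra.IsAlgebraic K[X] Γ(Γ', V) := Algebra.IsIntegral.isAlgebraic
  haveI : FaithfulSMul K[X] Γ(Γ', V) := (faithfulSMul_iff_algebraMap_injective _ _).mpr hφ
  haveI : Algebra.IsAlgebraic Γ(Γ', V) Γ'.functionField :=
    IsLocalization.isAlgebraic Γ'.functionField (nonZeroDivisors Γ(Γ', V))
  haveI : FaithfulSMul Γ(Γ', V) Γ'.functionField :=
    (faithfulSMul_iff_algebraMap_injective _ _).mpr (IsFractionRing.injective _ _)
  haveI : FaithfulSMul K K[X] := inferInstance
  haveI : FaithfulSMul K Γ(Γ', V) :=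
    (faithfulSMul_iff_algebraMap_injective _ _).mpr (by
      rw [IsScalarTower.algebraMap_eq K K[X] Γ(Γ', V)]
      exact hφ.comp (FaithfulSMul.algebraMap_injective K K[X]))
  have h1 : Algebra.trdeg K K[X] + Algebra.trdeg K[X] Γ(Γ', V) = Algebra.trdeg K Γ(Γ', V) :=
    trdeg_add_eq K K[X] (A := Γ(Γ', V))
  have h2 : Algebra.trdeg K Γ(Γ', V) + Algebra.trdeg Γ(Γ', V) Γ'.functionField =
      Algebra.trdeg K Γ'.functionField :=
    trdeg_add_eq K Γ(Γ', V) (A := Γ'.functionField)
  rw [trdeg_eq_zero (R := Γ(Γ', V)) (A := Γ'.functionField), add_zero] at h2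
  rw [trdeg_eq_zero (R := K[X]) (A := Γ(Γ', V)), add_zero, Polynomial.trdeg_of_isDomain] at h1
  rw [← h2, ← h1]

end Trdeg

section Final

variable (K : Type u) [Field K]

/-- The point underlying a `K`-point is closed. -/
theorem isClosed_singleton_ptOf {Y : Scheme.{u}} {y : Y ⟶ Spec (CommRingCat.of K)}
    (p : KPt y) : IsClosed ({C4.ptOf p} : Set Y) := by
  haveI : IsClosedImmersion p.1 := isClosedImmersion_of_comp_eq_id y p.1 p.2
  have h := p.1.isClosedEmbedding.isClosed_range
  have e : Set.range p.1 = {C4.ptOf p} := by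
    ext x
    constructor
    · rintro ⟨z, rfl⟩
      have hz : z = default := Subsingleton.elim _ _
      subst hz
      rfl
    · rintro rfl
      exact ⟨default, rfl⟩
  rwa [e] at h

variable [IsAlgClosed K]

/-- **C4a** in the frozen shape of `C4/Spec.lean`. -/
theorem c4a : C4.Stmt.C4a K := by
  intro X _ B hB hBne h0
  haveI : IsProper X.str := X.bundle.proper
  obtain ⟨Γ', ι, h1, h2, h3, h4, V, hV, ⟨y, hyV, hy⟩, φ, hφ, hφ', hφK⟩ :=
    exists_integral_curve_through X.str (C4.ptOf X.zero)
      (isClosed_singleton_ptOf K X.zero) B hB hBne h0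
  haveI := h2
  haveI : Nonempty V := ⟨⟨y, hyV⟩⟩
  exact ⟨Γ', h2, ι, h1, isCurveOver_of_cert (ι ≫ X.str) V hV φ hφ hφ' hφK, h3, h4⟩

end Final

end Fermat.Agent.S26.H730
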